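import Fermat.Agent.CM.ClassOne.DataNineteen
import Fermat.Agent.CM.ClassOne.Modular
import Fermat.Agent.CM.ClassOne.Setting

/-!
# The L-functions of the curves with `j = -884736`

These are the quadratic twists of `y² + y = x³ - 38 x + 90`, of discriminant `-19³`, which obeys
the law of the traces by the certificate for its multiplication by `(1 + √-19) / 2`.
-/

set_option autoImplicit false

noncomputable section

open WeierstrassCurve
open FA.Twists
open FA.CM.OddOrder

namespace FA.CM.Nineteen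

theorem prime_nineteen_arith : Nat.Prime 19 := by norm_num

instance factFourFive : Fact (19 + 1 = 4 * 5) := ⟨rfl⟩

local instance : Fact (Nat.Prime 19) := ⟨prime_nineteen_arith⟩

/-- `y² + y = x³ - 38 x + 90` -/
def curveNineteen : WeierstrassCurve ℤ := ⟨0, 0, 1, -38, 90⟩

theorem curveNineteen_invariants :
    curveNineteen.c₄ = 1824 ∧ curveNineteen.c₆ = -77976 ∧ curveNineteen.Δ = -6859 := by
  refine ⟨?_, ?_, ?_⟩ <;> norm_num [curveNineteen, c₄, c₆, WeierstrassCurve.Δ, b₂, b₄, b₆, b₈]

/-- **The law of the traces.** -/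
theorem traceLaw_nineteen : FA.CM.ClassOne.TraceLaw 19 curveNineteen :=
  FA.CM.ClassOne.traceLaw_of_certificates (n := 5) (by norm_num) (by norm_num)
    (by rw [curveNineteen_invariants.2.2]; norm_num) (w := 1 / 2) (by norm_num)
    (by rw [curveNineteen_invariants.1]; norm_num [FA.CM.ClassOne.shortCurve, c₄, b₂, b₄])
    (by rw [curveNineteen_invariants.2.1]; norm_num [FA.CM.ClassOne.shortCurve, c₆, b₂, b₄, b₆])
    FA.CM.ClassOne.certificates_nineteen

/-- **The L-function of a twist.** -/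
theorem LFunction_nineteen_twist (E : WeierstrassCurve ℚ) {x : ℚ} {D : ℤ} (hD : Squarefree D)
    (hx : x ≠ 0) (h4 : E.c₄ = x ^ 4 * (D : ℚ) ^ 2 * (curveNineteen.c₄ : ℚ))
    (h6 : E.c₆ = x ^ 6 * (D : ℚ) ^ 3 * (curveNineteen.c₆ : ℚ))
    {q : ℕ} (ψ : DirichletCharacter ℂ q)
    (hψ : ∀ l : ℕ, l.Prime → ψ (l : ZMod q) = (twistSign D l : ℂ)) (n : ℕ) :
    (E.LFunction n : ℂ) = ψ (n : ZMod q) * oddCoeff 19 5 n :=
  FA.CM.ClassOne.LFunction_twist (by decide) (by norm_num)
    (by rw [curveNineteen_invariants.2.2]; norm_num) (by rw [curveNineteen_invariants.1]; norm_num)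
    traceLaw_nineteen E hD hx h4 h6 ψ hψ n

end FA.CM.Nineteen

end
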